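import Fermat.Agent.S26.H4943.PrimePullback

/-!
# S26, SEESAW bridge: `p_T^*` of a prime element of `O_{T,t}` is prime in `O_{C ×_K T, x}`
(helper4943)

Scheme-level form of `prime_map_localization_of_prime`: for `C`, `T` integral schemes over an
algebraically closed field `K` and every point `x` of `C ×_K T`, the stalk map of the projection
`C ×_K T ⟶ T` at `x` sends prime elements to prime elements (`prime_stalkMap_snd`).
-/

set_option autoImplicit false

open CategoryTheory CategoryTheory.Limits AlgebraicGeometry TensorProduct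

universe u

namespace Fermat.Agent.S26.H4943

/-- An isomorphism of commutative rings preserves prime elements. -/
lemma prime_hom_of_isIso {R S : CommRingCat.{u}} (f : R ⟶ S) [IsIso f] {x : R} (hx : Prime x) :
    Prime (f.hom x) :=
  (MulEquiv.prime_iff (asIso f).commRingCatIsoToRingEquiv (p := x)).mpr hx

/-- A morphism of schemes all of whose stalk maps send prime elements to prime elements. -/
def StalkPrime {X Y : Scheme.{u}} (f : X ⟶ Y) : Prop :=
  ∀ (x : X) (τ : Y.presheaf.stalk (f x)), Prime τ → Prime ((f.stalkMap x).hom τ)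

lemma stalkPrime_of_isOpenImmersion {X Y : Scheme.{u}} (f : X ⟶ Y) [IsOpenImmersion f] :
    StalkPrime f := fun x _ hτ => prime_hom_of_isIso (f.stalkMap x) hτ

lemma StalkPrime.comp {X Y Z : Scheme.{u}} {f : X ⟶ Y} {g : Y ⟶ Z} (hf : StalkPrime f)
    (hg : StalkPrime g) : StalkPrime (f ≫ g) := by
  intro x τ hτ
  rw [Scheme.Hom.stalkMap_comp]
  exact hf x _ (hg (f x) τ hτ)

lemma StalkPrime.of_comp_left {X Y Z : Scheme.{u}} (f : X ⟶ Y) (g : Y ⟶ Z) [IsOpenImmersion f]
    (h : StalkPrime (f ≫ g)) (x : X) (τ : Z.presheaf.stalk (g (f x))) (hτ : Prime τ) :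
    Prime ((g.stalkMap (f x)).hom τ) := by
  have h1 := h x τ hτ
  rw [Scheme.Hom.stalkMap_comp] at h1
  have h2 := prime_hom_of_isIso (inv (f.stalkMap x)) h1
  have h3 : (inv (f.stalkMap x)).hom ((f.stalkMap x).hom ((g.stalkMap (f x)).hom τ)) =
      (g.stalkMap (f x)).hom τ := by
    rw [← CommRingCat.comp_apply, IsIso.hom_inv_id]
    rfl
  rw [← h3]
  exact h2

section Affine

variable (K : Type u) [Field K] [IsAlgClosed K] (A B : Type u) [CommRing A] [Algebra K A]
  [IsDomain A] [CommRing B] [Algebra K B] [IsDomain B]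

theorem stalkPrime_SpecMap_of_eq (f : CommRingCat.of B ⟶ CommRingCat.of (A ⊗[K] B))
    (hf : f.hom = (Algebra.TensorProduct.includeRight : B →ₐ[K] A ⊗[K] B).toRingHom) :
    StalkPrime (Spec.map f) := by
  intro p τ hτ
  have hp : (PrimeSpectrum.asIdeal (R := A ⊗[K] B) p).IsPrime :=
    PrimeSpectrum.isPrime (R := A ⊗[K] B) p
  have hq : (Ideal.comap f.hom (PrimeSpectrum.asIdeal (R := A ⊗[K] B) p)).IsPrime :=
    Ideal.comap_isPrime _ _
  have h1 : Prime ((Spec.stalkIso (CommRingCat.of B) (PrimeSpectrum.comap f.hom p)).hom.hom τ) :=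
    prime_hom_of_isIso (Spec.stalkIso (CommRingCat.of B) (PrimeSpectrum.comap f.hom p)).hom hτ
  have key := prime_map_localization_of_prime (K := K) (A := A) (B := B)
    (PrimeSpectrum.asIdeal (R := A ⊗[K] B) p)
    (Ideal.comap f.hom (PrimeSpectrum.asIdeal (R := A ⊗[K] B) p)) (by rw [hf]; rfl)
    (Localization.AtPrime (Ideal.comap f.hom (PrimeSpectrum.asIdeal (R := A ⊗[K] B) p)))
    (Localization.AtPrime (PrimeSpectrum.asIdeal (R := A ⊗[K] B) p))
    (Localization.localRingHom _ _ f.hom rfl)
    (fun b => by rw [Localization.localRingHom_to_map, hf]; rfl) h1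
  have h2 := prime_hom_of_isIso (Spec.stalkIso (CommRingCat.of (A ⊗[K] B)) p).inv key
  have h3 := Scheme.localRingHom_comp_stalkIso_apply f p τ
  exact (congrArg Prime h3).mp h2

theorem stalkPrime_SpecMap_includeRight :
    StalkPrime (Spec.map (CommRingCat.ofHom
      (Algebra.TensorProduct.includeRight : B →ₐ[K] A ⊗[K] B).toRingHom)) :=
  stalkPrime_SpecMap_of_eq K A B _ rfl

theorem stalkPrime_snd_affine :
    StalkPrime (pullback.snd (Spec.map (CommRingCat.ofHom (algebraMap K A)))
      (Spec.map (CommRingCat.ofHom (algebraMap K B)))) := by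
  rw [← pullbackSpecIso_hom_snd]
  exact (stalkPrime_of_isOpenImmersion _).comp (stalkPrime_SpecMap_includeRight K A B)

end Affine

section General

variable {K : Type u} [Field K] [IsAlgClosed K]

/-- Affine case with arbitrary structure morphisms. -/
theorem stalkPrime_snd_Spec (R S : CommRingCat.{u}) [IsDomain R] [IsDomain S]
    (a : Spec R ⟶ Spec (.of K)) (b : Spec S ⟶ Spec (.of K)) :
    StalkPrime (pullback.snd a b) := by
  obtain ⟨φ, rfl⟩ : ∃ φ, a = Spec.map φ := ⟨Spec.preimage a, (Spec.map_preimage a).symm⟩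
  obtain ⟨ψ, rfl⟩ : ∃ ψ, b = Spec.map ψ := ⟨Spec.preimage b, (Spec.map_preimage b).symm⟩
  let _ : Algebra K R := φ.hom.toAlgebra
  let _ : Algebra K S := ψ.hom.toAlgebra
  exact stalkPrime_snd_affine K R S

/-- **Vertical primes pull back to primes** (scheme form).  `C`, `T` integral schemes over an
algebraically closed field `K`.  For every point `x` of `C ×_K T`, the stalk map
`O_{T, p(x)} ⟶ O_{C ×_K T, x}` of the projection `p` sends prime elements to prime elements. -/
theorem stalkPrime_snd {C T : Scheme.{u}} (c : C ⟶ Spec (.of K)) (t : T ⟶ Spec (.of K))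
    [IsIntegral C] [IsIntegral T] : StalkPrime (pullback.snd c t) := by
  intro x τ hτ
  obtain ⟨⟨i, j⟩, x', rfl⟩ := (Scheme.Pullback.openCoverOfLeftRight C.affineOpenCover.openCover
    T.affineOpenCover.openCover c t).exists_eq x
  have hcomp : (Scheme.Pullback.openCoverOfLeftRight C.affineOpenCover.openCover
      T.affineOpenCover.openCover c t).f (i, j) ≫ pullback.snd c t =
      pullback.snd (C.affineOpenCover.f i ≫ c) (T.affineOpenCover.f j ≫ t) ≫
        T.affineOpenCover.f j :=
    pullback.lift_snd _ _ _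
  have hoC : IsOpenImmersion (C.affineOpenCover.f i) := C.affineOpenCover.map_prop i
  have hoT : IsOpenImmersion (T.affineOpenCover.f j) := T.affineOpenCover.map_prop j
  have hoι : IsOpenImmersion ((Scheme.Pullback.openCoverOfLeftRight C.affineOpenCover.openCover
      T.affineOpenCover.openCover c t).f (i, j)) :=
    (Scheme.Pullback.openCoverOfLeftRight C.affineOpenCover.openCover
      T.affineOpenCover.openCover c t).map_prop (i, j)
  have hnonC : Nonempty (Spec (C.affineOpenCover.X i)) :=
    ⟨pullback.fst (C.affineOpenCover.f i ≫ c) (T.affineOpenCover.f j ≫ t) x'⟩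
  have hnonT : Nonempty (Spec (T.affineOpenCover.X j)) :=
    ⟨pullback.snd (C.affineOpenCover.f i ≫ c) (T.affineOpenCover.f j ≫ t) x'⟩
  have hiC : IsIntegral (Spec (C.affineOpenCover.X i)) :=
    isIntegral_of_isOpenImmersion (C.affineOpenCover.f i)
  have hiT : IsIntegral (Spec (T.affineOpenCover.X j)) :=
    isIntegral_of_isOpenImmersion (T.affineOpenCover.f j)
  have hdC : IsDomain (C.affineOpenCover.X i) := (affine_isIntegral_iff _).mp hiC
  have hdT : IsDomain (T.affineOpenCover.X j) := (affine_isIntegral_iff _).mp hiT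
  have h1 : StalkPrime (pullback.snd (C.affineOpenCover.f i ≫ c) (T.affineOpenCover.f j ≫ t)) :=
    stalkPrime_snd_Spec _ _ _ _
  have h2 : StalkPrime ((Scheme.Pullback.openCoverOfLeftRight C.affineOpenCover.openCover
      T.affineOpenCover.openCover c t).f (i, j) ≫ pullback.snd c t) := by
    rw [hcomp]
    exact h1.comp (stalkPrime_of_isOpenImmersion _)
  exact StalkPrime.of_comp_left _ _ h2 x' τ hτ

/-- Unfolded form of `stalkPrime_snd`. -/
theorem prime_stalkMap_snd {C T : Scheme.{u}} (c : C ⟶ Spec (.of K)) (t : T ⟶ Spec (.of K))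
    [IsIntegral C] [IsIntegral T] (x : ↥(pullback c t))
    {τ : T.presheaf.stalk (pullback.snd c t x)} (hτ : Prime τ) :
    Prime (((pullback.snd c t).stalkMap x).hom τ) :=
  stalkPrime_snd c t x τ hτ

end General

end Fermat.Agent.S26.H4943
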