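import Fermat.Agent.S26.Var.TensorDomain

/-!
# S26, SEESAW bridge: a prime element of `O_{T,t}` stays prime in `O_{C × T,(c,t)}`  (helper4943)

Ring-level core (no finiteness, no noetherian hypotheses).  `K` algebraically closed, `A`, `B`
`K`-domains, `𝔓` a prime of `A ⊗[K] B` lying over `𝔮 ⊆ B`.  Then the canonical map
`B_𝔮 → (A ⊗[K] B)_𝔓` sends prime elements to prime elements
(`prime_map_localization_of_prime`).

Geometric meaning: if `W ⊆ T` is a prime divisor with local equation `τ` at `t`, then `p_T^* τ` is a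
local equation of the prime divisor `C × W` of `C × T` at every point `(c, t)`: vertical prime
divisors are pulled back with multiplicity one (this uses that `C × W` is integral, i.e. that the
tensor product of domains over an algebraically closed field is a domain).
-/

set_option autoImplicit false

open TensorProduct

namespace Fermat.Agent.S26.H4943

variable {K : Type*} [Field K] [IsAlgClosed K] {A B : Type*} [CommRing A] [Algebra K A]
  [IsDomain A] [CommRing B] [Algebra K B] [IsDomain B]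

omit [IsDomain B] in
/-- The extension to `A ⊗[K] B` of a prime ideal of `B` is prime (`K` algebraically closed,
`A` a domain). -/
theorem isPrime_map_includeRight (𝔟 : Ideal B) [𝔟.IsPrime] :
    (𝔟.map (Algebra.TensorProduct.includeRight : B →ₐ[K] A ⊗[K] B)).IsPrime := by
  have hdom : IsDomain (A ⊗[K] (B ⧸ 𝔟)) := Var.isDomain_tensorProduct
  have e := Algebra.TensorProduct.tensorQuotientEquiv (R := K) K B A 𝔟
  have : IsDomain ((A ⊗[K] B) ⧸ 𝔟.map (Algebra.TensorProduct.includeRight : B →ₐ[K] A ⊗[K] B)) :=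
    e.toMulEquiv.isDomain_iff.mp hdom
  exact Ideal.Quotient.isDomain_iff_prime _ |>.mp this

omit [IsAlgClosed K] [IsDomain A] [IsDomain B] in
theorem includeRight_injective' [Nontrivial A] :
    Function.Injective (Algebra.TensorProduct.includeRight : B →ₐ[K] A ⊗[K] B) :=
  Algebra.TensorProduct.includeRight_injective (FaithfulSMul.algebraMap_injective K A)

/-- **Vertical primes pull back to primes.**  `K` algebraically closed, `A`, `B` `K`-domains, `𝔓` a
prime of `A ⊗[K] B`, `𝔮` its contraction to `B`, `B'` the localisation of `B` at `𝔮`, `R'` the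
localisation of `A ⊗[K] B` at `𝔓`, and `φ : B' →+* R'` the induced map.  Then `φ` maps prime
elements to prime elements. -/
theorem prime_map_localization_of_prime
    (𝔓 : Ideal (A ⊗[K] B)) [𝔓.IsPrime] (𝔮 : Ideal B) [𝔮.IsPrime]
    (h𝔮 : 𝔮 = 𝔓.comap (Algebra.TensorProduct.includeRight : B →ₐ[K] A ⊗[K] B))
    (B' : Type*) [CommRing B'] [Algebra B B'] [IsLocalization.AtPrime B' 𝔮]
    (R' : Type*) [CommRing R'] [Algebra (A ⊗[K] B) R'] [IsLocalization.AtPrime R' 𝔓]
    (φ : B' →+* R')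
    (hφ : ∀ b : B, φ (algebraMap B B' b) = algebraMap (A ⊗[K] B) R' (1 ⊗ₜ[K] b))
    {τ : B'} (hτ : Prime τ) : Prime (φ τ) := by
  classical
  have : IsDomain (A ⊗[K] B) := Var.isDomain_tensorProduct
  -- write `τ * s = b`
  obtain ⟨⟨b, s⟩, hbs⟩ := IsLocalization.surj 𝔮.primeCompl τ
  simp only at hbs
  have hs_unit : IsUnit (algebraMap B B' (s : B)) := IsLocalization.map_units B' s
  have hb_prime : Prime (algebraMap B B' b) := by
    rw [← hbs]
    exact (Associated.prime_iff (associated_mul_unit_right τ _ hs_unit)).mp hτ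
  have hq : ∀ x : B, x ∈ 𝔮 ↔ (1 : A) ⊗ₜ[K] x ∈ 𝔓 := fun x =>
    (Ideal.ext_iff.mp h𝔮 x).trans Ideal.mem_comap
  have hs_notin : (1 : A) ⊗ₜ[K] (s : B) ∉ 𝔓 := fun h => s.2 ((hq _).mpr h)
  have hs_unit' : IsUnit (algebraMap (A ⊗[K] B) R' (1 ⊗ₜ[K] (s : B))) :=
    IsLocalization.map_units R' (⟨_, hs_notin⟩ : 𝔓.primeCompl)
  have hφbs : φ τ * algebraMap (A ⊗[K] B) R' (1 ⊗ₜ[K] (s : B)) =
      algebraMap (A ⊗[K] B) R' (1 ⊗ₜ[K] b) := by
    rw [← hφ, ← hφ, ← map_mul, hbs]
  suffices h : Prime (algebraMap (A ⊗[K] B) R' (1 ⊗ₜ[K] b)) by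
    rw [← hφbs] at h
    exact (Associated.prime_iff (associated_mul_unit_right (φ τ) _ hs_unit')).mpr h
  -- the prime ideal `𝔟 = b B' ∩ B`
  have hb_ne : algebraMap B B' b ≠ 0 := hb_prime.ne_zero
  have hb0 : b ≠ 0 := fun h => hb_ne (by rw [h, map_zero])
  have hspan : (Ideal.span {algebraMap B B' b}).IsPrime :=
    (Ideal.span_singleton_prime hb_ne).mpr hb_prime
  set 𝔟 : Ideal B := (Ideal.span {algebraMap B B' b}).comap (algebraMap B B') with h𝔟
  have : 𝔟.IsPrime := Ideal.comap_isPrime _ _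
  have hb𝔟 : b ∈ 𝔟 := Ideal.mem_comap.mpr (Ideal.subset_span rfl)
  have h𝔟𝔮 : 𝔟 ≤ 𝔮 := by
    intro x hx
    rw [h𝔟, Ideal.mem_comap, Ideal.mem_span_singleton] at hx
    by_contra hxq
    have hxu : IsUnit (algebraMap B B' x) := IsLocalization.map_units B' (⟨x, hxq⟩ : 𝔮.primeCompl)
    exact hb_prime.not_isUnit (isUnit_of_dvd_unit hx hxu)
  set J : Ideal (A ⊗[K] B) := 𝔟.map (Algebra.TensorProduct.includeRight : B →ₐ[K] A ⊗[K] B)
    with hJ
  have hJprime : J.IsPrime := isPrime_map_includeRight 𝔟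
  have hJ𝔓 : J ≤ 𝔓 := by
    rw [hJ, Ideal.map_le_iff_le_comap]
    intro x hx
    exact Ideal.mem_comap.mpr ((hq x).mp (h𝔟𝔮 hx))
  have hdisj : Disjoint (𝔓.primeCompl : Set (A ⊗[K] B)) (J : Set (A ⊗[K] B)) := by
    rw [Set.disjoint_left]
    intro x hx hxJ
    exact hx (hJ𝔓 hxJ)
  have hJ'prime : (J.map (algebraMap (A ⊗[K] B) R')).IsPrime :=
    IsLocalization.isPrime_of_isPrime_disjoint 𝔓.primeCompl R' J hJprime hdisj
  -- the extended ideal is generated by the image of `b`
  have hJ'eq : J.map (algebraMap (A ⊗[K] B) R') =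
      Ideal.span {algebraMap (A ⊗[K] B) R' (1 ⊗ₜ[K] b)} := by
    apply le_antisymm
    · rw [hJ, Ideal.map_le_iff_le_comap, Ideal.map_le_iff_le_comap]
      intro x hx
      rw [h𝔟, Ideal.mem_comap, Ideal.mem_span_singleton] at hx
      obtain ⟨y, hy⟩ := hx
      rw [Ideal.mem_comap, Ideal.mem_comap, Ideal.mem_span_singleton]
      refine ⟨φ y, ?_⟩
      have := congrArg φ hy
      rw [map_mul, hφ, hφ] at this
      exact this
    · rw [Ideal.span_singleton_le_iff_mem]
      exact Ideal.mem_map_of_mem _ (Ideal.mem_map_of_mem _ hb𝔟)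
  have hne : algebraMap (A ⊗[K] B) R' (1 ⊗ₜ[K] b) ≠ 0 := by
    intro h0
    have hinj : Function.Injective (algebraMap (A ⊗[K] B) R') :=
      IsLocalization.injective R' (M := 𝔓.primeCompl) 𝔓.primeCompl_le_nonZeroDivisors
    have h1 : (1 : A) ⊗ₜ[K] b = 0 := hinj (by rw [h0, map_zero])
    have h2 : (Algebra.TensorProduct.includeRight : B →ₐ[K] A ⊗[K] B) b = 0 := h1
    exact hb0 (includeRight_injective' (by rw [h2, map_zero]))
  rw [hJ'eq] at hJ'prime
  exact (Ideal.span_singleton_prime hne).mp hJ'prime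

end Fermat.Agent.S26.H4943
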